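import Mathlib
import Fermat.Agent.LT.T7.H589.StepTSpec

/-!
# Row LT, tower T7, LEAF ST.4 `DEkC589` (helper589, `T7/H589/StepTSpec.lean`): CLOSED

OFF-MAIN, ADDITIVE (new names only, suffix `562`, namespace `Fermat.Agent.LT.T7.H562`).
No hole, nothing assumed.

    dEkC562 (F) : ST589.DEkC589 F

The class of the continuous functions with compact support which are Eisenstein-killing with
Eisenstein-killing adjoint is stable under right translations (right invariance of the Haar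
measure of the frame, the ray generator is central; for the adjoint: left invariance), scalar
multiples, differences and finite sums.  The steps `dStep589` are built from these operations.
-/

set_option autoImplicit false

open AutomorphicForm IsDedekindDomain NumberField MeasureTheory
open scoped ComplexConjugate

noncomputable section

namespace Fermat.Agent.LT.T7.H562

open Fermat.Agent.LT.H556 Fermat.Agent.LT.H556.A0 Fermat.Agent.LT.T7

attribute [local instance] Fermat.Agent.LT.T5.instMeasurableSpaceG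

variable {F : Type} [Field F] [NumberField F]

/-- Continuous, compact support, Eisenstein-killing with Eisenstein-killing adjoint. -/
structure IsEKPair562 (μ : Measure (G F)) (φ : G F → ℂ) : Prop where
  cont : Continuous φ
  supp : HasCompactSupport φ
  ek : T5.IsEK μ φ
  ekadj : T5.IsEK μ (T5.adjointFn φ)

theorem adjoint_cont562 {φ : G F → ℂ} (h : Continuous φ) : Continuous (T5.adjointFn φ) := by
  show Continuous (fun g : G F => conj (φ g⁻¹))
  exact Complex.continuous_conj.comp (h.comp continuous_inv)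

theorem adjoint_supp562 {φ : G F → ℂ} (h : HasCompactSupport φ) :
    HasCompactSupport (T5.adjointFn φ) := by
  show HasCompactSupport (fun g : G F => conj (φ g⁻¹))
  have h1 : HasCompactSupport (fun g : G F => φ g⁻¹) :=
    h.comp_homeomorph (Homeomorph.inv (G F))
  exact h1.comp_left (map_zero _)

theorem integrable_rconv562 {μ : Measure (G F)} [μ.IsHaarMeasure] {φ Ψ : G F → ℂ}
    (hφ : Continuous φ) (hs : HasCompactSupport φ) (hΨ : Continuous Ψ) (x : G F) :
    Integrable (fun y : G F => φ y * Ψ (x * y)) μ := by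
  have : BorelSpace (G F) := ⟨rfl⟩
  have hc : Continuous (fun y : G F => φ y * Ψ (x * y)) :=
    hφ.mul (hΨ.comp (continuous_const_mul x))
  exact hc.integrable_of_hasCompactSupport hs.mul_right

theorem isEKPair_rtr562 {μ : Measure (G F)} {Fd : Set (G F)} (hF : T5.IsFrame μ Fd)
    {φ : G F → ℂ} (hφ : IsEKPair562 μ φ) (c : G F) :
    IsEKPair562 μ (fun g => φ (g * c)) := by
  have : BorelSpace (G F) := ⟨rfl⟩
  have := hF.haar
  have : μ.IsMulRightInvariant := by
    refine ⟨fun g => Measure.ext fun A hA => ?_⟩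
    rw [Measure.map_apply (measurable_mul_const g) hA]
    exact hF.right_inv g A hA
  refine ⟨hφ.cont.comp (continuous_mul_const c),
    hφ.supp.comp_homeomorph (Homeomorph.mulRight c), ?_, ?_⟩
  · intro Ψ hΨ x
    obtain ⟨r, hr, hrΨ⟩ := hΨ.ray
    have hΨ' : T5.IsBorelInvariantFn (fun g => Ψ (g * c⁻¹)) := by
      refine ⟨hΨ.cont.comp (continuous_mul_const c⁻¹), ?_, ?_, r, hr, ?_⟩
      · intro n a hn g
        show Ψ (n * g * c⁻¹) = Ψ (g * c⁻¹)
        rw [mul_assoc]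
        exact hΨ.unip n a hn _
      · intro t a b ht g
        show Ψ (T5.ratG t * g * c⁻¹) = Ψ (g * c⁻¹)
        rw [mul_assoc]
        exact hΨ.torus t a b ht _
      · intro g
        show Ψ (g * r * c⁻¹) = Ψ (g * c⁻¹)
        have : g * r * c⁻¹ = g * c⁻¹ * r := by
          rw [mul_assoc, T5.H277.ray_comm277 hr c⁻¹, ← mul_assoc]
        rw [this]
        exact hrΨ _
    have h0 := hφ.ek _ hΨ' x
    have h1 : (∫ y, φ y * Ψ (x * y * c⁻¹) ∂μ) = 0 := h0
    show (∫ y, φ (y * c) * Ψ (x * y) ∂μ) = 0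
    have h2 := integral_mul_right_eq_self (μ := μ) (fun y : G F => φ y * Ψ (x * y * c⁻¹)) c
    rw [h1] at h2
    rw [← h2]
    refine integral_congr_ae (Filter.Eventually.of_forall fun y => ?_)
    show φ (y * c) * Ψ (x * y) = φ (y * c) * Ψ (x * (y * c) * c⁻¹)
    congr 2
    group
  · have hadj : T5.adjointFn (fun g => φ (g * c)) = fun g => T5.adjointFn φ (c⁻¹ * g) := by
      funext g
      show conj (φ (g⁻¹ * c)) = conj (φ (c⁻¹ * g)⁻¹)
      rw [mul_inv_rev, inv_inv]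
    rw [hadj]
    intro Ψ hΨ x
    have h0 := hφ.ekadj Ψ hΨ (x * c)
    have h1 : (∫ y, T5.adjointFn φ y * Ψ (x * c * y) ∂μ) = 0 := h0
    show (∫ y, T5.adjointFn φ (c⁻¹ * y) * Ψ (x * y) ∂μ) = 0
    have h2 := integral_mul_left_eq_self (μ := μ)
      (fun y : G F => T5.adjointFn φ y * Ψ (x * c * y)) c⁻¹
    rw [h1] at h2
    rw [← h2]
    refine integral_congr_ae (Filter.Eventually.of_forall fun y => ?_)
    show T5.adjointFn φ (c⁻¹ * y) * Ψ (x * y) = T5.adjointFn φ (c⁻¹ * y) * Ψ (x * c * (c⁻¹ * y))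
    congr 2
    group

theorem isEKPair_smul562 {μ : Measure (G F)} {φ : G F → ℂ} (hφ : IsEKPair562 μ φ) (a : ℂ) :
    IsEKPair562 μ (fun g => a * φ g) := by
  refine ⟨continuous_const.mul hφ.cont, hφ.supp.mul_left, ?_, ?_⟩
  · intro Ψ hΨ x
    have h0 : (∫ y, φ y * Ψ (x * y) ∂μ) = 0 := hφ.ek Ψ hΨ x
    show (∫ y, a * φ y * Ψ (x * y) ∂μ) = 0
    have : (fun y => a * φ y * Ψ (x * y)) = fun y => a * (φ y * Ψ (x * y)) := by
      funext y; ring
    rw [this, integral_const_mul, h0, mul_zero]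
  · intro Ψ hΨ x
    have h0 : (∫ y, T5.adjointFn φ y * Ψ (x * y) ∂μ) = 0 := hφ.ekadj Ψ hΨ x
    show (∫ y, conj (a * φ y⁻¹) * Ψ (x * y) ∂μ) = 0
    have : (fun y => conj (a * φ y⁻¹) * Ψ (x * y))
        = fun y => conj a * (T5.adjointFn φ y * Ψ (x * y)) := by
      funext y
      show conj (a * φ y⁻¹) * Ψ (x * y) = conj a * (conj (φ y⁻¹) * Ψ (x * y))
      rw [map_mul]; ring
    rw [this, integral_const_mul, h0, mul_zero]

theorem isEKPair_sub562 {μ : Measure (G F)} [μ.IsHaarMeasure] {φ₁ φ₂ : G F → ℂ}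
    (h₁ : IsEKPair562 μ φ₁) (h₂ : IsEKPair562 μ φ₂) :
    IsEKPair562 μ (fun g => φ₁ g - φ₂ g) := by
  refine ⟨h₁.cont.sub h₂.cont, ?_, ?_, ?_⟩
  · have := h₁.supp.add (h₂.supp.neg)
    refine this.mono' ?_
    intro g hg
    refine subset_tsupport _ ?_
    intro h0
    apply hg
    show φ₁ g - φ₂ g = 0
    have : φ₁ g + -φ₂ g = 0 := h0
    rw [sub_eq_add_neg]; exact this
  · intro Ψ hΨ x
    have e1 : (∫ y, φ₁ y * Ψ (x * y) ∂μ) = 0 := h₁.ek Ψ hΨ x
    have e2 : (∫ y, φ₂ y * Ψ (x * y) ∂μ) = 0 := h₂.ek Ψ hΨ x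
    show (∫ y, (φ₁ y - φ₂ y) * Ψ (x * y) ∂μ) = 0
    have : (fun y => (φ₁ y - φ₂ y) * Ψ (x * y))
        = fun y => φ₁ y * Ψ (x * y) - φ₂ y * Ψ (x * y) := by
      funext y; ring
    rw [this, integral_sub (integrable_rconv562 h₁.cont h₁.supp hΨ.cont x)
      (integrable_rconv562 h₂.cont h₂.supp hΨ.cont x), e1, e2, sub_zero]
  · intro Ψ hΨ x
    have e1 : (∫ y, T5.adjointFn φ₁ y * Ψ (x * y) ∂μ) = 0 := h₁.ekadj Ψ hΨ x
    have e2 : (∫ y, T5.adjointFn φ₂ y * Ψ (x * y) ∂μ) = 0 := h₂.ekadj Ψ hΨ x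
    show (∫ y, conj (φ₁ y⁻¹ - φ₂ y⁻¹) * Ψ (x * y) ∂μ) = 0
    have : (fun y => conj (φ₁ y⁻¹ - φ₂ y⁻¹) * Ψ (x * y))
        = fun y => T5.adjointFn φ₁ y * Ψ (x * y) - T5.adjointFn φ₂ y * Ψ (x * y) := by
      funext y
      show conj (φ₁ y⁻¹ - φ₂ y⁻¹) * Ψ (x * y)
        = conj (φ₁ y⁻¹) * Ψ (x * y) - conj (φ₂ y⁻¹) * Ψ (x * y)
      rw [map_sub]; ring
    rw [this, integral_sub
      (integrable_rconv562 (adjoint_cont562 h₁.cont) (adjoint_supp562 h₁.supp) hΨ.cont x)
      (integrable_rconv562 (adjoint_cont562 h₂.cont) (adjoint_supp562 h₂.supp) hΨ.cont x),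
      e1, e2, sub_zero]

theorem isEKPair_zero562 {μ : Measure (G F)} : IsEKPair562 μ (fun _ : G F => (0 : ℂ)) := by
  refine ⟨continuous_const, HasCompactSupport.zero, ?_, ?_⟩
  · intro Ψ hΨ x
    show (∫ y, (0 : ℂ) * Ψ (x * y) ∂μ) = 0
    simp
  · intro Ψ hΨ x
    show (∫ y, conj (0 : ℂ) * Ψ (x * y) ∂μ) = 0
    simp

theorem isEKPair_add562 {μ : Measure (G F)} [μ.IsHaarMeasure] {φ₁ φ₂ : G F → ℂ}
    (h₁ : IsEKPair562 μ φ₁) (h₂ : IsEKPair562 μ φ₂) :
    IsEKPair562 μ (fun g => φ₁ g + φ₂ g) := by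
  have h3 := isEKPair_sub562 h₁ (isEKPair_smul562 h₂ (-1))
  have : (fun g => φ₁ g - (-1) * φ₂ g) = fun g => φ₁ g + φ₂ g := by
    funext g; ring
  rw [this] at h3
  exact h3

theorem isEKPair_sum562 {μ : Measure (G F)} [μ.IsHaarMeasure] {ι : Type} (s : Finset ι)
    (f : ι → G F → ℂ) (h : ∀ i ∈ s, IsEKPair562 μ (f i)) :
    IsEKPair562 μ (fun g => ∑ i ∈ s, f i g) := by
  classical
  induction s using Finset.induction_on with
  | empty =>
    have : (fun g : G F => ∑ i ∈ (∅ : Finset ι), f i g) = fun _ => (0 : ℂ) := by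
      funext g; simp
    rw [this]
    exact isEKPair_zero562
  | insert a s ha ih =>
    have h1 := h a (Finset.mem_insert_self a s)
    have h2 := ih fun i hi => h i (Finset.mem_insert_of_mem hi)
    have : (fun g : G F => ∑ i ∈ insert a s, f i g) = fun g => f a g + ∑ i ∈ s, f i g := by
      funext g
      exact Finset.sum_insert ha
    rw [this]
    exact isEKPair_add562 h1 h2

theorem isEKPair_tStep562 {μ : Measure (G F)} {Fd : Set (G F)} (hF : T5.IsFrame μ Fd)
    (v : HeightOneSpectrum (𝓞 F)) (H : Finset (G F)) (z : G F) {f : G F → ℂ}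
    (hf : IsEKPair562 μ f) : IsEKPair562 μ (ST589.tStep589 v H z f) := by
  have := hF.haar
  have key : IsEKPair562 μ (fun g => ∑ h ∈ H, f (g * (z⁻¹ * h))) :=
    isEKPair_sum562 H (fun h g => f (g * (z⁻¹ * h))) fun h _ => isEKPair_rtr562 hF hf _
  have key2 := isEKPair_smul562 key (((Real.sqrt (Ideal.absNorm v.asIdeal : ℝ) : ℝ) : ℂ)⁻¹)
  have e : ST589.tStep589 v H z f
      = fun g => ((Real.sqrt (Ideal.absNorm v.asIdeal : ℝ) : ℝ) : ℂ)⁻¹
        * ∑ h ∈ H, f (g * (z⁻¹ * h)) := by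
    funext g
    show ((Real.sqrt (Ideal.absNorm v.asIdeal : ℝ) : ℝ) : ℂ)⁻¹ * ∑ h ∈ H, f (g * z⁻¹ * h) = _
    congr 1
    refine Finset.sum_congr rfl fun h _ => ?_
    rw [mul_assoc]
  rw [e]
  exact key2

/-- **LEAF ST.4 `DEkC589`: CLOSED.** -/
theorem dEkC562 (F : Type) [Field F] [NumberField F] : ST589.DEkC589 F := by
  intro R hR 𝔫 v _ H z _ _ f hf _ hek hekadj
  have hF := hR.frame
  have := hF.haar
  have hf' : IsEKPair562 R.μ f := ⟨hf.cont, hf.supp, hek, hekadj⟩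
  have main : ∀ d : ℕ, IsEKPair562 R.μ (ST589.dStep589 v H z d f) ∧
      IsEKPair562 R.μ (ST589.dStep589 v H z (d + 1) f) := by
    intro d
    induction d with
    | zero =>
      exact ⟨isEKPair_smul562 hf' 2, isEKPair_tStep562 hF v H z hf'⟩
    | succ d ih =>
      refine ⟨ih.2, ?_⟩
      exact isEKPair_sub562 (isEKPair_tStep562 hF v H z ih.2)
        (isEKPair_rtr562 hF ih.1 z⁻¹)
  intro d
  exact ⟨(main d).1.ek, (main d).1.ekadj⟩

end Fermat.Agent.LT.T7.H562
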