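import Mathlib
import Fermat.Agent.LT.T7.H589.StepTSpec

/-!
# Row LT, tower T7, LEAF ST.5 `DSuppC589` (helper589, `T7/H589/StepTSpec.lean`): CLOSED

OFF-MAIN, ADDITIVE (new names only, suffix `562`, namespace `Fermat.Agent.LT.T7.H562`).
No hole, nothing assumed.

    dSuppC562 (F) : ST589.DSuppC589 F

The steps `dStep589 v H z d` at a place `v` outside the orbit preserve the Iwahori supports:
right translates by elements supported at `v`, finite sums, differences, scalar multiples.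
-/

set_option autoImplicit false

open AutomorphicForm IsDedekindDomain NumberField MeasureTheory

noncomputable section

namespace Fermat.Agent.LT.T7.H562

open Fermat.Agent.LT.H556 Fermat.Agent.LT.H556.A0 Fermat.Agent.LT.T7
open Fermat.Agent.LT.T7.H305

variable {F : Type} [Field F] [NumberField F]

theorem finGL_eq_one_of_trivD562 {v : HeightOneSpectrum (𝓞 F)} {z : G F}
    (h : TrivAtFin v z) : finGL305 v z = 1 :=
  Units.ext h

theorem infGL_eq_one_of_trivD562 {w : InfinitePlace F} {z : G F}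
    (h : TrivAtInf w z) : infGL305 w z = 1 := by
  apply Units.ext
  ext i j
  show InfinitePlace.Completion.extensionEmbedding w
      (((z : Matrix (Fin 2) (Fin 2) (Adl F)) i j).1 w) = (1 : Matrix (Fin 2) (Fin 2) ℂ) i j
  rw [h i j]
  by_cases hij : i = j
  · subst hij; simp
  · simp [hij]

/-- The Iwahori condition at `w` depends on the component at `w` only. -/
theorem inIwahori_congrD562 {w : HeightOneSpectrum (𝓞 F)} {g g' : G F}
    (h : finGL305 w g = finGL305 w g') (hg : T5.InIwahori w g) : T5.InIwahori w g' := by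
  have e1 : finComp w g = finComp w g' :=
    congrArg (fun u : GL (Fin 2) (w.adicCompletion F) =>
      (u : Matrix (Fin 2) (Fin 2) (w.adicCompletion F))) h
  have e2 : finComp w g⁻¹ = finComp w g'⁻¹ := by
    have h' : finGL305 w g⁻¹ = finGL305 w g'⁻¹ := by rw [map_inv, map_inv, h]
    exact congrArg (fun u : GL (Fin 2) (w.adicCompletion F) =>
      (u : Matrix (Fin 2) (Fin 2) (w.adicCompletion F))) h'
  obtain ⟨h1, h2, h3⟩ := hg
  refine ⟨fun i j => ?_, fun i j => ?_, ?_⟩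
  · have := h1 i j
    rw [e1] at this
    exact this
  · have := h2 i j
    rw [e2] at this
    exact this
  · rw [e1] at h3
    exact h3

/-- `b` is trivial at infinity and at the places of the orbit. -/
def IsOffOrbit562 (l : ℕ) (o : ℕ → HeightOneSpectrum (𝓞 F)) (b : G F) : Prop :=
  (∀ w : InfinitePlace F, infGL305 w b = 1) ∧ ∀ j : ℕ, j < l → finGL305 (o j) b = 1

theorem isOffOrbit_of_local562 {l : ℕ} {o : ℕ → HeightOneSpectrum (𝓞 F)}
    {v : HeightOneSpectrum (𝓞 F)} (hov : ∀ j : ℕ, j < l → o j ≠ v) {b : G F}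
    (hb : IsLocalAtFin v b) : IsOffOrbit562 l o b :=
  ⟨fun w => infGL_eq_one_of_trivD562 (hb.1 w),
    fun j hj => finGL_eq_one_of_trivD562 (hb.2 (o j) (hov j hj))⟩

theorem IsOffOrbit562.mul {l : ℕ} {o : ℕ → HeightOneSpectrum (𝓞 F)} {a b : G F}
    (ha : IsOffOrbit562 l o a) (hb : IsOffOrbit562 l o b) : IsOffOrbit562 l o (a * b) :=
  ⟨fun w => by rw [map_mul, ha.1 w, hb.1 w, one_mul],
    fun j hj => by rw [map_mul, ha.2 j hj, hb.2 j hj, one_mul]⟩

theorem IsOffOrbit562.inv {l : ℕ} {o : ℕ → HeightOneSpectrum (𝓞 F)} {a : G F}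
    (ha : IsOffOrbit562 l o a) : IsOffOrbit562 l o a⁻¹ :=
  ⟨fun w => by rw [map_inv, ha.1 w, inv_one],
    fun j hj => by rw [map_inv, ha.2 j hj, inv_one]⟩

/-- Right translation by an element which is trivial along the orbit and at infinity. -/
theorem iwSupp_rtr562 {l : ℕ} {o : ℕ → HeightOneSpectrum (𝓞 F)} {b : G F}
    (hb : IsOffOrbit562 l o b) {C : Set (G F)} {f : G F → ℂ}
    (hf : T5.H32.IsIwSupported32 l o C f) :
    T5.H32.IsIwSupported32 l o ((fun h => h * b⁻¹) '' C) (fun g => f (g * b)) := by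
  intro y hy
  obtain ⟨hIw, h, hhC, hag⟩ := hf (y * b) hy
  refine ⟨fun j hj => ?_, h * b⁻¹, ⟨h, hhC, rfl⟩, fun w => ?_, fun v' hv' => ?_⟩
  · refine inIwahori_congrD562 ?_ (hIw j hj)
    rw [map_mul, hb.2 j hj, mul_one]
  · have h1 : infGL305 w (y * b) = infGL305 w h := Units.ext (hag.1 w)
    have h2 : infGL305 w y = infGL305 w (h * b⁻¹) := by
      have hy' : y = (y * b) * b⁻¹ := by group
      rw [hy', map_mul, h1, map_mul]
    exact congrArg (fun u : GL (Fin 2) ℂ => (u : Matrix (Fin 2) (Fin 2) ℂ)) h2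
  · have h1 : finGL305 v' (y * b) = finGL305 v' h := Units.ext (hag.2 v' hv')
    have h2 : finGL305 v' y = finGL305 v' (h * b⁻¹) := by
      have hy' : y = (y * b) * b⁻¹ := by group
      rw [hy', map_mul, h1, map_mul]
    exact congrArg (fun u : GL (Fin 2) (v'.adicCompletion F) =>
      (u : Matrix (Fin 2) (Fin 2) (v'.adicCompletion F))) h2

theorem iwSupp_mono562 {l : ℕ} {o : ℕ → HeightOneSpectrum (𝓞 F)} {C C' : Set (G F)}
    (hCC : C ⊆ C') {f : G F → ℂ} (hf : T5.H32.IsIwSupported32 l o C f) :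
    T5.H32.IsIwSupported32 l o C' f := by
  intro y hy
  obtain ⟨hIw, h, hhC, hag⟩ := hf y hy
  exact ⟨hIw, h, hCC hhC, hag⟩

theorem iwSupp_of_ne562 {l : ℕ} {o : ℕ → HeightOneSpectrum (𝓞 F)} {C : Set (G F)}
    {f f' : G F → ℂ} (hf : T5.H32.IsIwSupported32 l o C f)
    (h : ∀ y, f' y ≠ 0 → f y ≠ 0) : T5.H32.IsIwSupported32 l o C f' :=
  fun y hy => hf y (h y hy)

/-- The existence form: compact Iwahori supports. -/
def HasIwSupp562 (l : ℕ) (o : ℕ → HeightOneSpectrum (𝓞 F)) (f : G F → ℂ) : Prop :=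
  ∃ C : Set (G F), IsCompact C ∧ T5.H32.IsIwSupported32 l o C f

theorem hasIwSupp_rtr562 {l : ℕ} {o : ℕ → HeightOneSpectrum (𝓞 F)} {b : G F}
    (hb : IsOffOrbit562 l o b) {f : G F → ℂ} (hf : HasIwSupp562 l o f) :
    HasIwSupp562 l o (fun g => f (g * b)) := by
  obtain ⟨C, hC, hf⟩ := hf
  exact ⟨_, hC.image (continuous_mul_const _), iwSupp_rtr562 hb hf⟩

theorem hasIwSupp_smul562 {l : ℕ} {o : ℕ → HeightOneSpectrum (𝓞 F)} (c : ℂ) {f : G F → ℂ}
    (hf : HasIwSupp562 l o f) : HasIwSupp562 l o (fun g => c * f g) := by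
  obtain ⟨C, hC, hf⟩ := hf
  exact ⟨C, hC, iwSupp_of_ne562 hf fun y hy => right_ne_zero_of_mul hy⟩

theorem hasIwSupp_sub562 {l : ℕ} {o : ℕ → HeightOneSpectrum (𝓞 F)} {f₁ f₂ : G F → ℂ}
    (h₁ : HasIwSupp562 l o f₁) (h₂ : HasIwSupp562 l o f₂) :
    HasIwSupp562 l o (fun g => f₁ g - f₂ g) := by
  obtain ⟨C₁, hC₁, hf₁⟩ := h₁
  obtain ⟨C₂, hC₂, hf₂⟩ := h₂
  refine ⟨C₁ ∪ C₂, hC₁.union hC₂, ?_⟩
  intro y hy
  by_cases h1 : f₁ y = 0
  · have h2 : f₂ y ≠ 0 := by
      intro h2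
      apply hy
      show f₁ y - f₂ y = 0
      rw [h1, h2, sub_zero]
    exact iwSupp_mono562 Set.subset_union_right hf₂ y h2
  · exact iwSupp_mono562 Set.subset_union_left hf₁ y h1

theorem hasIwSupp_sum562 {l : ℕ} {o : ℕ → HeightOneSpectrum (𝓞 F)} {ι : Type}
    (s : Finset ι) (f : ι → G F → ℂ) (h : ∀ i ∈ s, HasIwSupp562 l o (f i)) :
    HasIwSupp562 l o (fun g => ∑ i ∈ s, f i g) := by
  classical
  induction s using Finset.induction_on with
  | empty =>
    refine ⟨∅, isCompact_empty, ?_⟩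
    intro y hy
    exact absurd (Finset.sum_empty) hy
  | insert a s ha ih =>
    obtain ⟨C₁, hC₁, hf₁⟩ := h a (Finset.mem_insert_self a s)
    obtain ⟨C₂, hC₂, hf₂⟩ := ih fun i hi => h i (Finset.mem_insert_of_mem hi)
    refine ⟨C₁ ∪ C₂, hC₁.union hC₂, ?_⟩
    intro y hy
    have hy' : f a y + ∑ i ∈ s, f i y ≠ 0 := by
      have e := Finset.sum_insert (f := fun i => f i y) ha
      intro h0
      apply hy
      show ∑ i ∈ insert a s, f i y = 0
      rw [e]
      exact h0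
    by_cases h1 : f a y = 0
    · have h2 : (∑ i ∈ s, f i y) ≠ 0 := by
        intro h2
        apply hy'
        rw [h1, h2, add_zero]
      exact iwSupp_mono562 Set.subset_union_right hf₂ y h2
    · exact iwSupp_mono562 Set.subset_union_left hf₁ y h1

theorem hasIwSupp_tStep562 {l : ℕ} {o : ℕ → HeightOneSpectrum (𝓞 F)}
    {v : HeightOneSpectrum (𝓞 F)} (hov : ∀ j : ℕ, j < l → o j ≠ v)
    {H : Finset (G F)} {z : G F} (hH : IsHeckeCosetSystem v H)
    (hz : IsScalarUniformizerAt v z) {f : G F → ℂ} (hf : HasIwSupp562 l o f) :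
    HasIwSupp562 l o (ST589.tStep589 v H z f) := by
  have hzo : IsOffOrbit562 l o z := isOffOrbit_of_local562 hov hz.1
  have key : HasIwSupp562 l o (fun g => ∑ h ∈ H, f (g * (z⁻¹ * h))) := by
    refine hasIwSupp_sum562 H (fun h g => f (g * (z⁻¹ * h))) fun h hh => ?_
    exact hasIwSupp_rtr562 (hzo.inv.mul (isOffOrbit_of_local562 hov (hH.2.1 h hh).1)) hf
  have key2 := hasIwSupp_smul562 (((Real.sqrt (Ideal.absNorm v.asIdeal : ℝ) : ℝ) : ℂ)⁻¹) key
  obtain ⟨C, hC, hCf⟩ := key2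
  refine ⟨C, hC, ?_⟩
  intro y hy
  refine hCf y ?_
  have e : ST589.tStep589 v H z f y
      = ((Real.sqrt (Ideal.absNorm v.asIdeal : ℝ) : ℝ) : ℂ)⁻¹
        * ∑ h ∈ H, f (y * (z⁻¹ * h)) := by
    show ((Real.sqrt (Ideal.absNorm v.asIdeal : ℝ) : ℝ) : ℂ)⁻¹ * ∑ h ∈ H, f (y * z⁻¹ * h) = _
    congr 1
    refine Finset.sum_congr rfl fun h _ => ?_
    rw [mul_assoc]
  show ((Real.sqrt (Ideal.absNorm v.asIdeal : ℝ) : ℝ) : ℂ)⁻¹
      * ∑ h ∈ H, f (y * (z⁻¹ * h)) ≠ 0
  rw [← e]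
  exact hy

theorem hasIwSupp_sStep562 {l : ℕ} {o : ℕ → HeightOneSpectrum (𝓞 F)}
    {v : HeightOneSpectrum (𝓞 F)} (hov : ∀ j : ℕ, j < l → o j ≠ v)
    {z : G F} (hz : IsScalarUniformizerAt v z) {f : G F → ℂ} (hf : HasIwSupp562 l o f) :
    HasIwSupp562 l o (ST589.sStep589 z f) :=
  hasIwSupp_rtr562 (isOffOrbit_of_local562 hov hz.1).inv hf

/-- **LEAF ST.5 `DSuppC589`: CLOSED.** -/
theorem dSuppC562 (F : Type) [Field F] [NumberField F] : ST589.DSuppC589 F := by
  intro l o v hov H z hH hz f hf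
  have hf' : HasIwSupp562 l o f := hf
  have main : ∀ d : ℕ, HasIwSupp562 l o (ST589.dStep589 v H z d f) ∧
      HasIwSupp562 l o (ST589.dStep589 v H z (d + 1) f) := by
    intro d
    induction d with
    | zero =>
      exact ⟨hasIwSupp_smul562 2 hf', hasIwSupp_tStep562 hov hH hz hf'⟩
    | succ d ih =>
      refine ⟨ih.2, ?_⟩
      exact hasIwSupp_sub562 (hasIwSupp_tStep562 hov hH hz ih.2)
        (hasIwSupp_sStep562 hov hz ih.1)
  intro d
  exact (main d).1

end Fermat.Agent.LT.T7.H562
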